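import Fermat.Agent.Arith.CyclotomicCharacter
import Fermat.Agent.EC.FrobTrace.DetCyclotomic
import Mathlib.Analysis.Complex.Basic
import Fermat.Agent.EC.AtP.Inertia

/-!
# A cofixed line is the cyclotomic line

If `E[p]` has a Galois-stable line with trivial quotient then, the determinant being cyclotomic,
the Galois group acts on the line through the mod `p` cyclotomic character; complex conjugation
acts on it by `-1`.
-/

set_option autoImplicit false

namespace Fermat.Agent.Mazur.Large

open WeierstrassCurve Fermat.Agent.Arith Fermat.Agent.EC.AtP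
open scoped Pointwise

section Cyclotomic

variable (p : ℕ) [Fact p.Prime]

/-- An automorphism inducing complex conjugation through a given embedding. -/
theorem exists_conj (ι : QBar →ₐ[ℚ] ℂ) :
    ∃ c : GQ, ∀ x, ι (c x) = (starRingEnd ℂ) (ι x) := by
  let : Algebra QBar ℂ := ι.toRingHom.toAlgebra
  have : IsScalarTower ℚ QBar ℂ := IsScalarTower.of_algebraMap_eq fun r => (ι.commutes r).symm
  exact ⟨(Complex.conjAe.restrictScalars ℚ).restrictNormal QBar,
    fun x => AlgEquiv.restrictNormal_commutes (Complex.conjAe.restrictScalars ℚ) QBar x⟩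

theorem cyclotomicHom_conj {ι : QBar →ₐ[ℚ] ℂ} {c : GQ} (hc : ∀ x, ι (c x) = (starRingEnd ℂ) (ι x)) :
    (cyclotomicHom p c : ZMod p) = -1 := by
  have hp : p.Prime := Fact.out
  rw [cyclotomicHom_eq_natCast (c := p - 1) fun ζ hζ => ?_,
    Nat.cast_sub hp.one_lt.le, ZMod.natCast_self, Nat.cast_one, zero_sub]
  refine (ι : QBar →+* ℂ).injective ?_
  show ι (c ζ) = ι (ζ ^ (p - 1))
  rw [hc, map_pow]
  have h1 : ι ζ ^ p = 1 := by rw [← map_pow, hζ, map_one]
  rw [← Complex.inv_eq_conj (Complex.norm_eq_one_of_pow_eq_one h1 hp.ne_zero)]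
  refine inv_eq_of_mul_eq_one_right ?_
  rw [← pow_succ', Nat.sub_add_cancel hp.one_lt.le, h1]

/-- At a place over `p` some inertia element moves the `p`-th roots of unity. -/
theorem exists_inertia_cyclotomicHom_ne_one (hp2 : 2 < p) {A : ValuationSubring QBar}
    (hA : A.LiesOverPrime p) : ∃ σ ∈ A.inertiaSubgroupIn ℚ, cyclotomicHom p σ ≠ 1 := by
  obtain ⟨σ, hσ, he⟩ := exists_mem_inertia_cyclotomicHom_eq hA (-1 : (ZMod p)ˣ)
  have : Fact (2 < p) := ⟨hp2⟩
  exact ⟨σ, hσ, fun h => ZMod.neg_one_ne_one (n := p) (congrArg Units.val (he.symm.trans h))⟩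

/-- On an element killed by `p`, multiplication by `p - 1` is negation. -/
theorem mul_sub_one_nsmul {G : Type*} [AddCommGroup G] {x : G} (hx : p • x = 0) (k : ℕ) :
    (k * (p - 1)) • x = -(k • x) := by
  rw [eq_neg_iff_add_eq_zero, ← add_nsmul, ← Nat.mul_succ, Nat.succ_eq_add_one,
    Nat.sub_add_cancel (Fact.out : p.Prime).one_lt.le, mul_comm, mul_nsmul, hx, nsmul_zero]

end Cyclotomic

variable (W : WeierstrassCurve ℤ) (p : ℕ) [Fact p.Prime]

/-- `T` spans a Galois-stable line of `E[p]` on which the action is cyclotomic and modulo which it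
is trivial. -/
structure IsCyclotomicLine (T : PointQBar W) : Prop where
  ne_zero : T ≠ 0
  nsmul_eq : p • T = 0
  smul_eq : ∀ σ : GQ, σ • T = (cyclotomicHom p σ : ZMod p).val • T
  cofix : ∀ (σ : GQ) (R : PointQBar W), p • R = 0 → ∃ k : ℕ, σ • R = R + k • T

/-- A cofixed line is a cyclotomic line. -/
theorem exists_isCyclotomicLine (hΔ : W.Δ ≠ 0)
    (h : Affine.Point.HasGaloisStableCofixedLine (K := AlgebraicClosure ℚ) ℚ
      (W.map (Int.castRingHom ℚ)) p) :
    ∃ T : PointQBar W, IsCyclotomicLine W p T := by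
  have hp : p.Prime := Fact.out
  have : (W.map (Int.castRingHom ℚ)).IsElliptic := EC.FrobTrace.isElliptic_map_rat hΔ
  obtain ⟨N, hst, hbot, htop, hco⟩ := h
  obtain ⟨T, hTN, hT0⟩ := Submodule.exists_mem_ne_zero_of_ne_bot hbot
  -- The line is spanned by any nonzero `T`; complete it to a basis `R, T`.
  have hspan : Submodule.span (ZMod p) {T} = N := by
    apply Submodule.toAddSubgroup_injective
    refine subgroup_eq_of_le_of_ne_top (W := W) (p := p) hp ?_ ?_ ?_
    · exact fun hb => hT0 ((AddSubgroup.eq_bot_iff_forall _).mp hb T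
        (Submodule.subset_span (Set.mem_singleton T)))
    · exact fun ht => htop (Submodule.toAddSubgroup_injective
        (ht.trans Submodule.top_toAddSubgroup.symm))
    · exact Submodule.toAddSubgroup_mono ((Submodule.span_singleton_le_iff_mem _ _).mpr hTN)
  have hmul : ∀ c : ZMod p, ((c • T : TorsQBar W p) : PointQBar W) = c.val • (T : PointQBar W) := by
    intro c
    conv_lhs => rw [← ZMod.natCast_zmod_val c, Nat.cast_smul_eq_nsmul]
    rfl
  obtain ⟨R, -, hR⟩ := SetLike.exists_of_lt (lt_top_iff_ne_top.mpr htop)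
  have hV := EC.Torsion.finrank_torsionBy_baseChange (W.map (Int.castRingHom ℚ)) QBar
    (p := p) (Nat.cast_ne_zero.mpr hp.ne_zero)
  have hli : LinearIndependent (ZMod p) ![R, T] := by
    rw [linearIndependent_fin2]
    exact ⟨hT0, fun a ha => hR (by
      have ha' : a • T = R := by simpa using ha
      rw [← ha']; exact N.smul_mem a hTN)⟩
  let b := basisOfLinearIndependentOfCardEqFinrank hli (by rw [hV, Fintype.card_fin])
  have hb0 : b 0 = R := by simp [b]
  have hb1 : b 1 = T := by simp [b]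
  refine ⟨T, fun h0 => hT0 (Subtype.ext h0), nsmul_coe_torsQBar T, fun σ => ?_, fun σ R' hR' => ?_⟩
  · obtain ⟨χ, hχ⟩ := Submodule.mem_span_singleton.mp (hspan.ge (hst σ T hTN))
    obtain ⟨k, hk⟩ := Submodule.mem_span_singleton.mp (hspan.ge (hco σ R))
    -- The determinant is the character on `T`; it is the cyclotomic one by the Weil pairing.
    have hdet : LinearMap.det
        (Affine.Point.galoisRepModuleEnd (K := QBar) ℚ (W.map (Int.castRingHom ℚ)) p σ) = χ := by
      have e0 : Affine.Point.galoisRepModuleEnd (K := QBar) ℚ (W.map (Int.castRingHom ℚ)) p σ (b 0)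
          = b 0 + k • b 1 := by
        rw [hb0, hb1, Affine.Point.galoisRepModuleEnd_apply, hk]
        exact (add_sub_cancel R (σ • R)).symm
      have e1 : Affine.Point.galoisRepModuleEnd (K := QBar) ℚ (W.map (Int.castRingHom ℚ)) p σ (b 1)
          = χ • b 1 := by
        rw [hb1, Affine.Point.galoisRepModuleEnd_apply, hχ]
      rw [← LinearMap.det_toMatrix b, Matrix.det_fin_two]
      simp [LinearMap.toMatrix_apply, e0, e1]
    have := EC.FrobTrace.galoisRepDetEqCyclotomic W hΔ p (EC.FrobTrace.card_rootsOfUnity_Qbar p) σ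
    have hval := congrArg (Units.val) this
    rw [Affine.Point.galoisRepDet_apply, LinearEquiv.coe_det,
      show ((Affine.Point.galoisRep (S := ℚ) (K := QBar) (W.map (Int.castRingHom ℚ)) p σ) :
        _ →ₗ[ZMod p] _) = Affine.Point.galoisRepModuleEnd ℚ (W.map (Int.castRingHom ℚ)) p σ
        from rfl, hdet, ← cyclotomicHom_apply] at hval
    rw [← hval, ← hmul, hχ]
    rfl
  · have hR'' : R' ∈ Submodule.torsionBy ℤ (PointQBar W) p := by
      rw [Submodule.mem_torsionBy_iff, natCast_zsmul]; exact hR'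
    obtain ⟨k, hk⟩ := Submodule.mem_span_singleton.mp (hspan.ge (hco σ ⟨R', hR''⟩))
    refine ⟨k.val, ?_⟩
    rw [← hmul, hk]
    exact (add_sub_cancel R' (σ • R')).symm

namespace IsCyclotomicLine

variable {W p} {T : PointQBar W} (h : IsCyclotomicLine W p T)

include h

/-- Multiples of the generator of the line are killed by `p`. -/
theorem nsmul_nsmul_eq (k : ℕ) : p • (k • T) = 0 := by
  rw [smul_comm, h.nsmul_eq, nsmul_zero]

theorem nsmul_eq_zero_iff {k : ℕ} : k • T = 0 ↔ p ∣ k := by
  rw [← addOrderOf_eq_prime h.nsmul_eq h.ne_zero, addOrderOf_dvd_iff_nsmul_eq_zero]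

/-- Complex conjugation negates the line. -/
theorem conj_smul {c : GQ} (hc : (cyclotomicHom p c : ZMod p) = -1) (k : ℕ) :
    c • (k • T) = -(k • T) := by
  have hk : c • (k • T) = k • (c • T) := map_nsmul (Affine.Point.map (c : GQ).toAlgHom) k T
  rw [hk, h.smul_eq, hc, show ((-1 : ZMod p)).val = p - 1 from ?_, ← mul_nsmul',
    mul_sub_one_nsmul p h.nsmul_eq]
  obtain ⟨m, hm⟩ : ∃ m, p = m + 1 :=
    ⟨p - 1, (Nat.sub_add_cancel (Fact.out : p.Prime).one_lt.le).symm⟩
  subst hm
  rw [ZMod.val_neg_one, Nat.add_sub_cancel]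

end IsCyclotomicLine

end Fermat.Agent.Mazur.Large
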