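import Fermat.Agent.EC.AtP.FreyTwoAdic

/-!
# Points negated by complex conjugation lie left of every root

On `y² + xy = x³ + a₂x² + a₄x` let `R` have odd order and satisfy `c R = -R`, `c` complex
conjugation. Then `x(R)` is real and, `R` being a double, `x(R) ≤ e` for every real root `e` of
`4x³ + (1 + 4a₂)x² + 4a₄x`.
-/

set_option autoImplicit false

namespace Fermat.Agent.Mazur.Large

open WeierstrassCurve Fermat.Agent.Arith Fermat.Agent.EC.AtP

/-- `x(2R) - e` is a square divided by `(2y + x)²`. -/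
theorem double_sub_root {K : Type*} [Field K] {a₂ a₄ e x y l : K} (h2 : (2 : K) ≠ 0)
    (hxy : y ^ 2 + x * y = x ^ 3 + a₂ * x ^ 2 + a₄ * x)
    (hl : l * (2 * y + x) = 3 * x ^ 2 + 2 * a₂ * x + a₄ - y)
    (he : 4 * e ^ 3 + (1 + 4 * a₂) * e ^ 2 + 4 * a₄ * e = 0) :
    (l ^ 2 + l - a₂ - 2 * x - e) * (2 * y + x) ^ 2 =
      ((x - e) ^ 2 - (3 * e ^ 2 + (1 + 4 * a₂) * e / 2 + a₄)) ^ 2 := by
  have key : (l ^ 2 + l - a₂ - 2 * x - e) * (2 * y + x) ^ 2 =
      (3 * x ^ 2 + 2 * a₂ * x + a₄ - y) * (3 * x ^ 2 + 2 * a₂ * x + a₄ + y + x)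
        - (a₂ + 2 * x + e) * (2 * y + x) ^ 2 := by
    rw [← hl]
    linear_combination (l * (2 * y + x)) * hl
  rw [key]
  field_simp
  linear_combination (-4 * (1 + 4 * (a₂ + 2 * x + e))) * hxy
    + (-8 * x - 4 * e - (1 + 4 * a₂)) * he

variable {P : FreyPackage}

/-- The equation `y² + xy = x³ + a₂x² + a₄x` of the Frey curve. -/
theorem equation_freyWL_iff {x y : QBar} : (freyWL P).Equation x y ↔ y ^ 2 + x * y =
    x ^ 3 + (P.freyCurveInt.a₂ : QBar) * x ^ 2 + (P.freyCurveInt.a₄ : QBar) * x := by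
  obtain ⟨h1, h3, h6, h2, h4⟩ := freyQBar_coeffs (P := P)
  rw [Affine.equation_iff, h1, h2, h3, h4, h6]
  simp only [one_mul, zero_mul, add_zero]

/-- The negative of `(x, y)` on the Frey curve is `(x, -y - x)`. -/
theorem negY_freyWL (x y : QBar) : (freyWL P).negY x y = -y - x := by
  obtain ⟨h1, h3, -⟩ := freyQBar_coeffs (P := P)
  rw [Affine.negY, h1, h3]
  ring

/-- A nonzero point of odd order negated by conjugation: `x` is real and `2y + x` is imaginary. -/
theorem coords_of_conj_neg {ι : QBar →ₐ[ℚ] ℂ} {c : GQ}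
    (hc : ∀ z, ι (c z) = (starRingEnd ℂ) (ι z)) {x y : QBar}
    {h : (freyWL P).Nonsingular x y}
    (hneg : c • (Affine.Point.some x y h : PointQBar P.freyCurveInt) = -Affine.Point.some x y h)
    (hy : y ≠ (freyWL P).negY x y) :
    (ι x).im = 0 ∧ (ι (2 * y + x)).re = 0 ∧ (ι (2 * y + x)).im ≠ 0 := by
  rw [Affine.Point.algEquiv_smul_def, Affine.Point.map_some, Affine.Point.neg_some,
    Affine.Point.some.injEq] at hneg
  obtain ⟨ex, ey⟩ := hneg
  -- conjugation fixes `x` and negates `2y + x`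
  have ey' : c y = -y - x := ey.trans (negY_freyWL x y)
  have eη : c (2 * y + x) = -(2 * y + x) := by
    rw [map_add, map_mul, map_ofNat, ey', show c x = x from ex]; ring
  have hx := hc x
  rw [show c x = x from ex] at hx
  have hη := hc (2 * y + x)
  rw [eη, map_neg] at hη
  have hre : (ι (2 * y + x)).re = 0 := by
    have := congrArg Complex.re hη
    simp only [Complex.neg_re, Complex.conj_re] at this
    linarith
  refine ⟨Complex.conj_eq_iff_im.mp hx.symm, hre, fun him => hy ?_⟩
  have h0 : ι (2 * y + x) = 0 := Complex.ext (by simpa using hre) (by simpa using him)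
  rw [map_eq_zero] at h0
  rw [negY_freyWL]
  linear_combination h0

/-- A point of odd order negated by complex conjugation lies left of every real root. -/
theorem re_le_root {ι : QBar →ₐ[ℚ] ℂ} {c : GQ} (hc : ∀ z, ι (c z) = (starRingEnd ℂ) (ι z))
    {m : ℕ} (hm : Odd m) {x y : QBar} {h : (freyWL P).Nonsingular x y}
    (hmR : m • (Affine.Point.some x y h : PointQBar P.freyCurveInt) = 0)
    (hneg : c • (Affine.Point.some x y h : PointQBar P.freyCurveInt) = -Affine.Point.some x y h)
    {e : ℤ} (he : 4 * e ^ 3 + (1 + 4 * P.freyCurveInt.a₂) * e ^ 2 + 4 * P.freyCurveInt.a₄ * e = 0) :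
    (ι x).im = 0 ∧ (ι x).re ≤ e := by
  classical
  obtain ⟨k, hk⟩ := hm
  obtain ⟨h1, h3, h6, h2, h4⟩ := freyQBar_coeffs (P := P)
  set R : PointQBar P.freyCurveInt := Affine.Point.some x y h with hR
  -- `R` is the double of `R' = (k + 1) • R`
  have hdbl : (k + 1) • R + (k + 1) • R = R := by
    rw [← add_nsmul, show k + 1 + (k + 1) = m + 1 by omega, succ_nsmul, hmR, zero_add]
  -- `R` is not a two-torsion point, so its abscissa is real
  have hyR : y ≠ (freyWL P).negY x y := by
    intro hy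
    have h2R : R + R = 0 := Affine.Point.add_self_of_Y_eq hy
    have : R = 0 := by
      calc R = m • R + R - m • R := by abel
        _ = (m + 1) • R - m • R := by rw [succ_nsmul]
        _ = (k + 1) • (R + R) - m • R := by rw [nsmul_add, ← add_nsmul]; congr 2; omega
        _ = 0 := by rw [h2R, nsmul_zero, hmR, sub_zero]
    exact Affine.Point.some_ne_zero _ this
  obtain ⟨hxim, -, -⟩ := coords_of_conj_neg hc hneg hyR
  refine ⟨hxim, ?_⟩
  match hR' : (k + 1) • R with
  | .zero =>
    rw [hR'] at hdbl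
    exact absurd (hdbl.symm.trans (add_zero (0 : PointQBar P.freyCurveInt)))
      (Affine.Point.some_ne_zero _)
  | .some x' y' h' =>
    have hy' : y' ≠ (freyWL P).negY x' y' := by
      intro hy
      rw [hR', Affine.Point.add_self_of_Y_eq hy] at hdbl
      exact Affine.Point.some_ne_zero _ hdbl.symm
    -- `R'` is also negated: `x'` is real and `η = 2y' + x'` is purely imaginary and nonzero
    have hneg' : c • (Affine.Point.some x' y' h' : PointQBar P.freyCurveInt) =
        -Affine.Point.some x' y' h' := by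
      have e1 : c • ((k + 1) • R) = (k + 1) • (c • R) :=
        map_nsmul (Affine.Point.map (c : GQ).toAlgHom) (k + 1) R
      rw [hneg, neg_nsmul, hR'] at e1
      exact e1
    obtain ⟨hxim', hηre, hηim⟩ := coords_of_conj_neg hc hneg' hy'
    rw [hR', hR, Affine.Point.add_self_of_Y_ne hy', Affine.Point.some.injEq] at hdbl
    obtain ⟨hx, -⟩ := hdbl
    -- in `double_sub_root`, `(x - e) η² = Φ²` with `η² < 0` and `Φ` real
    set l := (freyWL P).slope x' x' y' y' with hl
    have hD : 2 * y' + x' ≠ 0 := fun h0 => hηim (by rw [h0, map_zero, Complex.zero_im])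
    have hlD : l * (2 * y' + x') =
        3 * x' ^ 2 + 2 * (P.freyCurveInt.a₂ : QBar) * x' + (P.freyCurveInt.a₄ : QBar) - y' := by
      rw [hl, Affine.slope_of_Y_ne rfl hy', Affine.negY, h1, h2, h3, h4]
      rw [show y' - (-y' - 1 * x' - 0) = 2 * y' + x' by ring]
      field_simp
    have heq := equation_freyWL_iff.mp h'.1
    have he' : 4 * (e : QBar) ^ 3 + (1 + 4 * (P.freyCurveInt.a₂ : QBar)) * (e : QBar) ^ 2
        + 4 * (P.freyCurveInt.a₄ : QBar) * e = 0 := by
        exact_mod_cast congrArg (Int.cast : ℤ → QBar) he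
    have hx2 : x = l ^ 2 + l - (P.freyCurveInt.a₂ : QBar) - 2 * x' := by
      rw [← hx, Affine.addX, h1, h2]; ring
    have key := congrArg ι (double_sub_root two_ne_zero heq hlD he')
    rw [← hx2] at key
    simp only [map_mul, map_pow, map_sub, map_add, map_div₀, map_ofNat, map_intCast, map_one] at key
    set η := ι (2 * y' + x') with hη
    rw [show (2 : ℂ) * ι y' + ι x' = η by rw [hη]; simp [map_ofNat]] at key
    have hq : ((ι x' - e) ^ 2 - (3 * (e : ℂ) ^ 2 + (1 + 4 * (P.freyCurveInt.a₂ : ℂ)) * e / 2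
        + (P.freyCurveInt.a₄ : ℂ))) = ((((ι x').re - e) ^ 2 - (3 * (e : ℝ) ^ 2
          + (1 + 4 * (P.freyCurveInt.a₂ : ℝ)) * e / 2 + (P.freyCurveInt.a₄ : ℝ)) : ℝ) : ℂ) := by
      push_cast
      rw [show ι x' = (((ι x').re : ℝ) : ℂ) from Complex.ext rfl (by simp [hxim'])]
      simp
    have hηC : η = ((η.im : ℝ) : ℂ) * Complex.I := Complex.ext (by simp [hηre]) (by simp)
    have hxC : ι x = (((ι x).re : ℝ) : ℂ) := Complex.ext rfl (by simp [hxim])
    rw [hq, hηC, hxC, mul_pow, Complex.I_sq] at key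
    have keyR : ((ι x).re - e) * (η.im ^ 2 * -1) = (((ι x').re - e) ^ 2 - (3 * (e : ℝ) ^ 2
          + (1 + 4 * (P.freyCurveInt.a₂ : ℝ)) * e / 2 + (P.freyCurveInt.a₄ : ℝ))) ^ 2 := by
      apply Complex.ofReal_injective
      push_cast at key ⊢
      linear_combination key
    have hpos : 0 < η.im ^ 2 := by positivity
    nlinarith [sq_nonneg (((ι x').re - e) ^ 2 - (3 * (e : ℝ) ^ 2
          + (1 + 4 * (P.freyCurveInt.a₂ : ℝ)) * e / 2 + (P.freyCurveInt.a₄ : ℝ)))]

end Fermat.Agent.Mazur.Large
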