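import Fermat.Agent.Mazur.Large.Local
import Fermat.Agent.Mazur.Large.Endgame
import Fermat.Agent.EC.FrobTrace.Main

/-!
# No cofixed line for `p ≥ 17`, given Mazur's three-place lemma for a stable subgroup

`ThreePlaceLemma`: for a prime `p ∉ {2, 3, 5, 7, 13}`, a point of order `p` spanning a stable
subgroup, in the identity component at the multiplicative primes `2` and `3`, is in it at every
multiplicative prime other than `p`. Given this,
`not_hasGaloisStableCofixedLine_of_seventeen_le`: the mod `p` representation of a Frey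
package with `p ≥ 17` has no Galois stable cofixed line. It is used in `Mazur/Large/Assembly` and
for S12; the lemma is proved in `Mazur/Eisenstein/Final`.

Outline, for a cofixed line spanned by `T`:

1. the line is the cyclotomic one (`exists_isCyclotomicLine`);
2. Frobenius at `3` shows `3 ∣ abc` (`three_dvd_abc`);
3. `T` is in the identity component at `2` and `3`, as `q ^ 2 + 1 < p` there (`inE0_small`);
4. hence, by the three-place lemma, at every bad prime other than `p`; at `p` it is so by the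
   action of inertia (`inE0_at_p`) and at the other primes by good reduction;
5. this is impossible (`false_of_inE0_everywhere` of `Mazur/Large/Endgame`).
-/

set_option autoImplicit false

namespace Fermat.Agent.Mazur.Large

open WeierstrassCurve Fermat.Agent.Arith Fermat.Agent.EC.AtP Fermat.Agent.EC.Reduction
open scoped WeierstrassCurve.Affine

/-! ## The three-place lemma -/

/-- Mazur's three-place lemma for a Galois-stable subgroup of prime order: if it lies in the
identity component at the multiplicative places `2` and `3`, it does so at every multiplicative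
place away from `p`. -/
def ThreePlaceLemma : Prop :=
  ∀ (p : ℕ), p.Prime → p ∉ ({2, 3, 5, 7, 13} : Finset ℕ) →
  ∀ (W : WeierstrassCurve ℤ), W.Δ ≠ 0 →
  ∀ (T : ((W.map (Int.castRingHom ℚ))⁄(AlgebraicClosure ℚ)).Point), addOrderOf T = p →
  (∀ σ : AlgebraicClosure ℚ ≃ₐ[ℚ] AlgebraicClosure ℚ, ∃ k : ℕ, σ • T = k • T) →
  (2 : ℤ) ∣ W.Δ → ¬ (2 : ℤ) ∣ W.c₄ →
  (∀ A : ValuationSubring (AlgebraicClosure ℚ), A.LiesOverPrime 2 → W.InZeroComponentAt A T) →
  (3 : ℤ) ∣ W.Δ → ¬ (3 : ℤ) ∣ W.c₄ →
  (∀ A : ValuationSubring (AlgebraicClosure ℚ), A.LiesOverPrime 3 → W.InZeroComponentAt A T) →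
  ∀ {ℓ : ℕ}, ℓ.Prime → ℓ ≠ p → (ℓ : ℤ) ∣ W.Δ → ¬ (ℓ : ℤ) ∣ W.c₄ →
  ∀ A : ValuationSubring (AlgebraicClosure ℚ), A.LiesOverPrime ℓ → W.InZeroComponentAt A T

/-! ## Bad reduction at `3` -/

variable {P : FreyPackage} [Fact (Nat.Prime P.p)] {T : PointQBar P.freyCurveInt}

/-- The Frey curve of a cyclotomic line has bad reduction at `3` for `p ≥ 17`: otherwise `p` would
divide its number of points modulo `3`, which is at most ten. -/
theorem three_dvd_abc (hT : IsCyclotomicLine P.freyCurveInt P.p T) (hp : 17 ≤ P.p) :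
    (3 : ℤ) ∣ P.a * P.b * P.c := by
  classical
  by_contra h3
  have hgood : P.freyCurveInt.IsGoodPrimeFor 3 := Frey.not_dvd_Δ P Nat.prime_three h3
  obtain ⟨A, hA⟩ := exists_liesOverPrime Nat.prime_three
  obtain ⟨σ, hσ⟩ := exists_isFrobeniusAt hA Nat.prime_three
  obtain ⟨S, hS, hind⟩ := exists_independent hT
  have hS' : S ∈ Submodule.torsionBy ℤ (PointQBar P.freyCurveInt) P.p := by
    rw [Submodule.mem_torsionBy_iff, natCast_zsmul]; exact hS
  have h3p : (3 : ℕ) ≠ P.p := by omega
  -- Frobenius at `3` fixes `S` up to `k • T` and acts on `T` by `3`, so its quadratic relation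
  -- makes `4 - a₃`, the number of points modulo `3`, kill `S + k • T`
  have hquad := congrArg Subtype.val
    (EC.FrobTrace.frobenius_quadratic P.freyCurveInt P.pp Nat.prime_three hgood h3p hA hσ ⟨S, hS'⟩)
  obtain ⟨k, hk⟩ := hT.cofix σ S hS
  have hσT : σ • T = 3 • T := by
    rw [hT.smul_eq, cyclotomicHom_frobenius hA Nat.prime_three hσ
      (fun h => h3p ((Nat.prime_dvd_prime_iff_eq Nat.prime_three Fact.out).mp h)), ZMod.val_natCast,
      Nat.mod_eq_of_lt (by omega)]
  have hσσ : σ • (σ • S) = S + k • T + k • (3 • T) := by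
    have hadd : σ • (S + k • T) = σ • S + σ • (k • T) :=
      map_add (Affine.Point.map (σ : GQ).toAlgHom) S (k • T)
    rw [hk, hadd, nsmul_smul, hσT, hk]
  have hzero : ((4 : ℤ) - P.freyCurveInt.apOfModel 3) • (S + k • T) = 0 := by
    have e : σ • (σ • S) - P.freyCurveInt.apOfModel 3 • (σ • S) + ((3 : ℕ) : ℤ) • S = 0 := hquad
    rw [hσσ, hk] at e
    rw [← e]
    simp only [← natCast_zsmul, smul_smul]
    module
  -- this point has order `p`
  have hU : S + k • T ≠ 0 := by
    intro h0
    have hST : (k * (P.p - 1)) • T = 1 • S := by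
      rw [one_nsmul, eq_neg_of_add_eq_zero_left h0, mul_sub_one_nsmul P.p hT.nsmul_eq]
    exact P.pp.one_lt.ne' (Nat.dvd_one.mp (hind _ _ hST).2)
  have hpU : P.p • (S + k • T) = 0 := by rw [nsmul_add, hS, hT.nsmul_nsmul_eq, add_zero]
  have hdvd : (P.p : ℤ) ∣ (4 - P.freyCurveInt.apOfModel 3) := by
    rw [← addOrderOf_eq_prime hpU hU]
    exact addOrderOf_dvd_iff_zsmul_eq_zero.mpr hzero
  have hap : (4 : ℤ) - P.freyCurveInt.apOfModel 3 = ((P.freyCurveInt.reductionMod 3).card : ℤ) := by
    rw [WeierstrassCurve.apOfModel, WeierstrassCurve.traceOfFrobenius, Nat.card_zmod]; ring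
  rw [hap, Int.natCast_dvd_natCast] at hdvd
  have hle := card_reductionMod_three_le P.freyCurveInt
  have hpos : 0 < (P.freyCurveInt.reductionMod 3).card :=
    Nat.card_pos (α := (P.freyCurveInt.reductionMod 3).toAffine.Point)
  have := Nat.le_of_dvd hpos hdvd
  omega

/-! ## No cofixed line -/

/-- The Frey curve has no cofixed line for `p ≥ 17`, given the three-place lemma. -/
theorem not_hasGaloisStableCofixedLine_of_seventeen_le (hcore : ThreePlaceLemma) (P : FreyPackage)
    (hp : 17 ≤ P.p) :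
    ¬ Affine.Point.HasGaloisStableCofixedLine (K := AlgebraicClosure ℚ) ℚ P.freyCurve P.p := by
  classical
  have : Fact (Nat.Prime P.p) := ⟨P.pp⟩
  rw [Frey.freyCurve_eq_map]
  intro hline
  have hΔ0 := Frey.Δ_ne_zero P
  obtain ⟨T, hT⟩ := exists_isCyclotomicLine P.freyCurveInt P.p hΔ0 hline
  obtain ⟨S, hS, hind⟩ := exists_independent hT
  -- `2` and `3` are multiplicative primes
  have h2 : ((2 : ℕ) : ℤ) ∣ P.a * P.b * P.c := P.two_dvd_abc
  have h3 : ((3 : ℕ) : ℤ) ∣ P.a * P.b * P.c := three_dvd_abc hT hp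
  have h2Δ := EC.Reduction.Frey.two_dvd_Δ P
  have h3Δ := Frey.dvd_Δ P Nat.prime_three (by norm_num) h3
  have h2c := Frey.not_dvd_c₄ P Nat.prime_two h2
  have h3c := Frey.not_dvd_c₄ P Nat.prime_three h3
  -- `T` is in the identity component at `2` and `3`
  have hsmall2 : ∀ A : ValuationSubring QBar, A.LiesOverPrime 2 →
      InE0 A (redCurve P.freyCurveInt A) T := fun A hA =>
    inE0_small hT hΔ0 hA Nat.prime_two (by omega) (by norm_num; omega) h2Δ h2c hS hind
  have hsmall3 : ∀ A : ValuationSubring QBar, A.LiesOverPrime 3 →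
      InE0 A (redCurve P.freyCurveInt A) T := fun A hA =>
    inE0_small hT hΔ0 hA Nat.prime_three (by omega) (by norm_num; omega) h3Δ h3c hS hind
  -- hence at every prime, which is impossible
  refine false_of_inE0_everywhere hT fun q hq A hA => ?_
  by_cases hqp : q = P.p
  · subst hqp
    exact inE0_at_p hT (by omega) (frey_inertiaPreservesComponent P) hA
  by_cases hqΔ : (q : ℤ) ∣ P.freyCurveInt.Δ
  · have hqabc : (q : ℤ) ∣ P.a * P.b * P.c := by
      by_contra hn
      exact Frey.not_dvd_Δ P hq hn hqΔ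
    have hp' : P.p ∉ ({2, 3, 5, 7, 13} : Finset ℕ) := by
      simp only [Finset.mem_insert, Finset.mem_singleton]
      omega
    exact (inZeroComponentAt_iff P.freyCurveInt T).mp
      (hcore P.p P.pp hp' P.freyCurveInt hΔ0 T (addOrderOf_eq_prime hT.nsmul_eq hT.ne_zero)
        (fun σ => ⟨_, hT.smul_eq σ⟩)
        h2Δ h2c (fun B hB => (inZeroComponentAt_iff P.freyCurveInt T).mpr (hsmall2 B hB))
        h3Δ h3c (fun B hB => (inZeroComponentAt_iff P.freyCurveInt T).mpr (hsmall3 B hB))
        hq hqp hqΔ (Frey.not_dvd_c₄ P hq hqabc) A hA)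
  · exact inE0_of_good hA hq hqΔ _

end Fermat.Agent.Mazur.Large
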