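import Fermat.Agent.Mazur.Large.Main
import Fermat.Agent.S10
import Fermat.Agent.S11
import Fermat.Agent.S13

/-!
# Irreducibility of the Frey representation, given the three-place lemma

`galoisRepIsIrreducible_frey`: given `ThreePlaceLemma`, the mod `p` representation of every Frey
package is irreducible. A reducible one has a Galois stable cofixed line by S13, which is excluded
by S10 for `p = 5, 7, 13`, by S11 for `p = 11` and by `Mazur/Large/Main` for `p ≥ 17`.
It is used for S09.

## References

* B. Mazur, *Rational isogenies of prime degree*, Invent. Math. (1978).
* J.-P. Serre, *Sur les représentations modulaires de degré 2 de Gal(Q̄/Q)*, Duke Math. J. (1987).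

Serre deduces irreducibility from Mazur's bound on rational torsion. Here `p ≥ 17` uses the
component lemma and an elementary archimedean argument (`Mazur/Large/Endgame`); the exponents up
to `13` are treated by explicit descents.
-/

set_option autoImplicit false

namespace Fermat.Agent.Mazur.Large

open WeierstrassCurve.Affine.Point

/-- Mazur: the Frey representation is irreducible, given the three-place lemma. -/
theorem galoisRepIsIrreducible_frey (hcore : ThreePlaceLemma) (P : FreyPackage) :
    GaloisRepIsIrreducible (K := AlgebraicClosure ℚ) ℚ P.freyCurve P.p := by
  by_contra hred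
  have hline := Fermat.Agent.S13.result P hred
  by_cases h17 : 17 ≤ P.p
  · exact not_hasGaloisStableCofixedLine_of_seventeen_le hcore P h17 hline
  -- the exponents below `17` are `5`, `7`, `11` and `13`
  have hcases : P.p = 5 ∨ P.p = 7 ∨ P.p = 11 ∨ P.p = 13 := by
    have hp5 := P.hp5
    have hpp := P.pp
    have hlt : P.p < 17 := by omega
    generalize P.p = n at hp5 hlt hpp ⊢
    interval_cases n <;> revert hpp <;> norm_num
  rcases hcases with h | h | h | h
  · exact Fermat.Agent.S10.result P (Or.inl h) hline
  · exact Fermat.Agent.S10.result P (Or.inr (Or.inl h)) hline
  · exact Fermat.Agent.S11.result P h hline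
  · exact Fermat.Agent.S10.result P (Or.inr (Or.inr h)) hline

end Fermat.Agent.Mazur.Large
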