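import Fermat.Agent.Mazur.Large.Line
import Fermat.Agent.EC.AtP.FreyTwoAdic
import Fermat.Agent.EC.Multiplicative.Int

/-!
# The cyclotomic line at `p` and at the small primes

Also two counts: there is a point of order `p` off the line (`exists_independent`), and a curve
has at most ten points modulo `3` (`card_reductionMod_three_le`).
-/

set_option autoImplicit false

namespace Fermat.Agent.Mazur.Large

open WeierstrassCurve Fermat.Agent.Arith Fermat.Agent.EC.AtP Fermat.Agent.EC.Reduction

variable {W : WeierstrassCurve ℤ} [(W.map (Int.castRingHom ℚ)).IsElliptic] {p : ℕ} [Fact p.Prime]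
  {T : PointQBar W}

omit [(W.map (Int.castRingHom ℚ)).IsElliptic] in
theorem nsmul_smul (σ : GQ) (k : ℕ) (R : PointQBar W) : σ • (k • R) = k • (σ • R) :=
  map_nsmul (Affine.Point.map (σ : GQ).toAlgHom) k R

/-- On an element killed by `p`, multiplication by a number prime to `p` can be undone. -/
theorem exists_nsmul_nsmul_eq_self {G : Type*} [AddCommGroup G] {x : G} {m : ℕ} (hx : p • x = 0)
    (hm : (m : ZMod p) ≠ 0) : ∃ k : ℕ, k • (m • x) = x := by
  refine ⟨((m : ZMod p)⁻¹).val, ?_⟩
  rw [← mul_nsmul', nsmul_eq_mod_nsmul _ hx, ← ZMod.val_natCast, Nat.cast_mul,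
    ZMod.natCast_zmod_val, inv_mul_cancel₀ hm, ZMod.val_one, one_nsmul]

/-- A second, independent point of order `p`. -/
theorem exists_independent (hT : IsCyclotomicLine W p T) :
    ∃ S : PointQBar W, p • S = 0 ∧ ∀ i j : ℕ, i • T = j • S → p ∣ i ∧ p ∣ j := by
  have hp : p.Prime := Fact.out
  -- the `p` multiples of `T` do not exhaust the `p ^ 2` points killed by `p`
  obtain ⟨S, hS⟩ : ∃ S : TorsQBar W p, ∀ k : ℕ, (S : PointQBar W) ≠ k • T := by
    by_contra hall
    push Not at hall
    choose f hf using hall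
    have hinj : Function.Injective fun S => (f S : ZMod p) := fun S S' e => Subtype.ext <| by
      rw [hf S, hf S', nsmul_eq_mod_nsmul (f S) hT.nsmul_eq,
        (ZMod.natCast_eq_natCast_iff' _ _ _).mp e, ← nsmul_eq_mod_nsmul (f S') hT.nsmul_eq]
    have := Nat.card_le_card_of_injective _ hinj
    rw [EC.Torsion.natCard_torsionBy_algebraicClosureRat _ hp.ne_zero, Nat.card_zmod] at this
    nlinarith [hp.two_le]
  have hpS := nsmul_coe_torsQBar (W := W) S
  refine ⟨S, hpS, fun i j hij => ?_⟩
  by_cases hj : p ∣ j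
  · obtain ⟨d, rfl⟩ := hj
    rw [mul_nsmul, hpS, nsmul_zero] at hij
    exact ⟨hT.nsmul_eq_zero_iff.mp hij, dvd_mul_right _ _⟩
  · -- an inverse of `j` modulo `p` would make `S` a multiple of `T`
    have hj0 : (j : ZMod p) ≠ 0 := fun h0 => hj ((ZMod.natCast_eq_zero_iff _ _).mp h0)
    obtain ⟨d, hd⟩ := exists_nsmul_nsmul_eq_self hpS hj0
    refine absurd ?_ (hS (d * i))
    rw [mul_nsmul', hij, hd]

omit [(W.map (Int.castRingHom ℚ)).IsElliptic] in
/-- A curve has at most ten points modulo `3`. -/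
theorem card_reductionMod_three_le (W : WeierstrassCurve ℤ) : (W.reductionMod 3).card ≤ 10 := by
  let g : (W.reductionMod 3).toAffine.Point → Option (ZMod 3 × ZMod 3) := fun R =>
    match R with
    | .zero => none
    | .some x y _ => Option.some (x, y)
  have hg : Function.Injective g := by
    rintro (_ | ⟨x, y, hxy⟩) (_ | ⟨x', y', hxy'⟩) h <;> simp [g] at h ⊢
    exact h
  refine (Nat.card_le_card_of_injective g hg).trans ?_
  simp [Nat.card_eq_fintype_card]

omit [(W.map (Int.castRingHom ℚ)).IsElliptic] in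
/-- At a place over `p` the line lies in the identity component, as soon as inertia moves points
within their components. -/
theorem inE0_at_p (h : IsCyclotomicLine W p T) (hp2 : 2 < p)
    (hcomp : InertiaPreservesComponent W) {A : ValuationSubring QBar} (hA : A.LiesOverPrime p) :
    InE0 A (redCurve W A) T := by
  classical
  have hp : p.Prime := Fact.out
  obtain ⟨σ, hσ, hne⟩ := exists_inertia_cyclotomicHom_ne_one p hp2 hA
  -- `σ • T - T = (χ σ - 1) • T` is in the identity component and `χ σ - 1` is a unit mod `p`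
  have hE := (reducesTo_qbar (W := W) A).mem_E0.mpr (hcomp p hp A hA σ hσ T)
  set χ : ZMod p := (cyclotomicHom p σ : ZMod p) with hχ
  set e : ℕ := χ.val + (p - 1) with he
  have hsub : σ • T - T = e • T := by
    rw [he, add_nsmul, h.smul_eq, ← hχ, sub_eq_add_neg, ← one_mul (p - 1),
      mul_sub_one_nsmul p h.nsmul_eq, one_nsmul]
  have hχ1 : χ - 1 ≠ 0 := by
    refine sub_ne_zero.mpr fun h1 => hne (Units.ext ?_)
    rw [Units.val_one]; exact h1
  have he' : (e : ZMod p) = χ - 1 := by
    rw [he, Nat.cast_add, ZMod.natCast_zmod_val, Nat.cast_sub hp.one_lt.le, ZMod.natCast_self,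
      Nat.cast_one, zero_sub, sub_eq_add_neg]
  rw [hsub] at hE
  obtain ⟨d, hd⟩ := exists_nsmul_nsmul_eq_self h.nsmul_eq (he' ▸ hχ1)
  rw [← hd]
  exact (reducesTo_qbar (W := W) A).mem_E0.mp
    ((reducesTo_qbar (W := W) A).E0.nsmul_mem hE d)

variable {A : ValuationSubring QBar} {q : ℕ}

omit [(W.map (Int.castRingHom ℚ)).IsElliptic] in
/-- A nonzero `p`-torsion point with nonsingular reduction at a small prime `q` is not fixed by
Frobenius: the reduced curve has at most `q ^ 2 < p - 1` rational affine points. -/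
theorem smul_ne_self_of_small (hA : A.LiesOverPrime q) (hq : q.Prime) (hqp : q ≠ p)
    (hsmall : q ^ 2 + 1 < p) {σ : GQ} (hσ : A.IsFrobeniusAt σ q) {R : PointQBar W}
    (hR0 : R ≠ 0) (hpR : p • R = 0) (hRE : InE0 A (redCurve W A) R) : σ • R ≠ R := by
  classical
  intro hfix
  have hp : p.Prime := Fact.out
  have h := reducesTo_qbar (W := W) A
  obtain ⟨hs, hf⟩ := res_frobenius hσ
  set S : Finset (IsLocalRing.ResidueField A) :=
    (Polynomial.X ^ q - Polynomial.X : Polynomial (IsLocalRing.ResidueField A)).roots.toFinset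
    with hS
  have hS' : S.card ≤ q := (Multiset.toFinset_card_le _).trans
    ((Polynomial.card_roots' _).trans (FiniteField.X_pow_card_sub_X_natDegree_eq _ hq.one_lt).le)
  have hmemE : ∀ m : ℕ, InE0 A (redCurve W A) (m • R) := fun m =>
    h.mem_E0.mp (h.E0.nsmul_mem (h.mem_E0.mpr hRE) m)
  have hpm : ∀ m : ℕ, p • (m • R) = 0 := fun m => by rw [smul_comm, hpR, nsmul_zero]
  -- the multiples `(k + 1) • R`, `k < p - 1`, reduce to affine points with coordinates in `𝔽_q`
  have hcoord : ∀ k : Fin (p - 1), ∃ c : IsLocalRing.ResidueField A × IsLocalRing.ResidueField A,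
      c ∈ S ×ˢ S ∧ ∃ (x y : QBar) (hn : _) ,
        (k.1 + 1) • R = Affine.Point.some x y hn ∧ x ∈ A ∧
        (redCurve W A).Nonsingular (res A x) (res A y) ∧ c = (res A x, res A y) := by
    intro k
    have hne : (k.1 + 1) • R ≠ 0 :=
      nsmul_ne_zero_of_prime hp hpR hR0 (Nat.succ_pos _) (by have := k.2; omega)
    have hk := hmemE (k.1 + 1)
    match he : (k.1 + 1) • R with
    | .zero => exact absurd he hne
    | .some x y hn =>
      have hx : x ∈ A := by
        by_contra hx
        refine hne (e1TorsionFree p hp q hq hqp A hA _ ?_ ?_)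
        · rw [he]; exact hx
        · exact hpm _
      have hns : (redCurve W A).Nonsingular (res A x) (res A y) :=
        ((inE0_some hn).mp (he ▸ hk)).resolve_left (not_not_intro hx)
      have hfix' : σ • ((k.1 + 1) • R) = (k.1 + 1) • R := by rw [nsmul_smul, hfix]
      rw [he] at hfix'
      obtain ⟨h', e⟩ := smul_some (σ := σ) hn
      obtain ⟨ex, ey⟩ := (Affine.Point.some.injEq ..).mp (e.symm.trans hfix')
      have hmem : ∀ z ∈ A, σ z = z → res A z ∈ S := by
        intro z hz hzfix
        rw [hS, Multiset.mem_toFinset, Polynomial.mem_roots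
          (FiniteField.X_pow_card_sub_X_ne_zero _ hq.one_lt)]
        have := hf z hz
        rw [hzfix] at this
        simp [Polynomial.IsRoot, ← this]
      have hy : y ∈ A := h.y_mem hn.1 hx
      exact ⟨(res A x, res A y), Finset.mem_product.mpr ⟨hmem x hx ex, hmem y hy ey⟩,
        x, y, hn, rfl, hx, hns, rfl⟩
  choose f hfS hfc using hcoord
  -- the reductions are distinct as there is no `p`-torsion in the kernel of reduction
  have hinj : Function.Injective f := by
    intro i j hij
    obtain ⟨x, y, hn, ei, hx, hns, hi⟩ := hfc i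
    obtain ⟨x', y', hn', ej, hx', hns', hj⟩ := hfc j
    rw [hi, hj, Prod.mk.injEq] at hij
    have heq : redFun A (redCurve W A) ((i.1 + 1) • R) = redFun A (redCurve W A)
        ((j.1 + 1) • R) := by
      rw [ei, ej, redFun_some hn hx hns, redFun_some hn' hx' hns']
      simp only [hij.1, hij.2]
    have hz := e1TorsionFree p hp q hq hqp A hA _
      (h.mem_E1.mp (h.sub_mem_E1 (hmemE _) (hmemE _) heq))
      (by rw [nsmul_sub, hpm, hpm, sub_zero])
    rw [sub_eq_zero] at hz
    have hord := addOrderOf_eq_prime hpR hR0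
    have hmod := (nsmul_eq_nsmul_iff_modEq).mp hz
    rw [hord] at hmod
    have hi2 := i.2
    have hj2 := j.2
    have := Nat.ModEq.eq_of_lt_of_lt hmod (by omega) (by omega)
    exact Fin.ext (by omega)
  have hcard := Finset.card_le_card_of_injOn (s := (Finset.univ : Finset (Fin (p - 1)))) f
    (fun k _ => hfS k) hinj.injOn
  rw [Finset.card_univ, Fintype.card_fin, Finset.card_product] at hcard
  have : S.card * S.card ≤ q ^ 2 := by rw [sq]; exact Nat.mul_le_mul hS' hS'
  omega

/-- A point at the node with `v(x - r)²` above `v(c)` has component plus or minus the class of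
`v(x - r)²`, according to the branch it lies on. -/
private theorem comp_eq_or_neg {K : Type*} [Field K] {B : ValuationSubring K} {E : Affine K}
    {V : Affine (IsLocalRing.ResidueField B)} (N : EC.Multiplicative.Node B E V) {x y : K}
    {hn : E.Nonsingular x y} (hP : N.AtNode (Affine.Point.some x y hn))
    (hbig : B.valuation N.c < B.valuation (x - N.r) ^ 2) :
    N.comp (Affine.Point.some x y hn) = N.cls (B.valuation (x - N.r) ^ 2) ∨
      N.comp (Affine.Point.some x y hn) = -N.cls (B.valuation (x - N.r) ^ 2) := by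
  have hv : (B.valuation (x - N.r) ^ 2) ≠ 0 := (lt_of_le_of_lt zero_le hbig).ne'
  rw [N.comp_of_atNode hP, EC.Multiplicative.compVal, if_pos hbig]
  split_ifs
  · exact Or.inl rfl
  · refine Or.inr (eq_neg_of_add_eq_zero_left ?_)
    rw [← N.cls_mul (inv_ne_zero hv) hv, inv_mul_cancel₀ hv, N.cls_eq_zero_iff one_ne_zero]
    exact EC.Multiplicative.InH.one

omit [(W.map (Int.castRingHom ℚ)).IsElliptic] in
/-- At a multiplicative place some nonzero `p`-torsion point has nonsingular reduction. -/
theorem exists_inE0_torsion (hA : A.LiesOverPrime q) (hq : q.Prime) (hΔ0 : W.Δ ≠ 0)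
    (hΔ : (q : ℤ) ∣ W.Δ) (hc₄ : ¬ (q : ℤ) ∣ W.c₄) (hp2 : p ≠ 2)
    {P Q : PointQBar W} (hP : p • P = 0) (hQ : p • Q = 0)
    (hind : ∀ i j : ℕ, i • P = j • Q → p ∣ i ∧ p ∣ j) :
    ∃ R : PointQBar W, R ≠ 0 ∧ p • R = 0 ∧ InE0 A (redCurve W A) R := by
  classical
  have hp : p.Prime := Fact.out
  have hodd : Odd p := hp.odd_of_ne_two hp2
  obtain ⟨N, -⟩ := EC.Multiplicative.exists_node_int hA hq hΔ0 hΔ hc₄
  have hP0 : P ≠ 0 := fun h0 => hp.one_lt.ne'
    (Nat.dvd_one.mp (hind 1 0 (by rw [h0, nsmul_zero, zero_nsmul])).1)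
  by_cases hPE : InE0 A (redCurve W A) P
  · exact ⟨P, hP0, hP, hPE⟩
  have hQ0 : Q ≠ 0 := fun h0 => hp.one_lt.ne'
    (Nat.dvd_one.mp (hind 0 1 (by rw [h0, nsmul_zero, zero_nsmul])).2)
  by_cases hQE : InE0 A (redCurve W A) Q
  · exact ⟨Q, hQ0, hQ, hQE⟩
  -- both are at the node and `j` times the component of `P` is plus or minus `i` times that of `Q`
  obtain ⟨i, j, hj, hcomp⟩ : ∃ i j : ℕ, ¬ p ∣ j ∧
      (j • N.comp P = i • N.comp Q ∨ j • N.comp P = -(i • N.comp Q)) := by
    match P, Q with
    | .zero, _ => exact absurd rfl hP0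
    | _, .zero => exact absurd rfl hQ0
    | .some x y hn, .some x' y' hn' =>
      have hPn := (N.not_inE0_iff _).mp hPE
      have hQn := (N.not_inE0_iff _).mp hQE
      obtain ⟨hbigP, i, -, -, hi⟩ := N.valuation_pow_of_nsmul hodd hPn hP
      obtain ⟨hbigQ, j, hj0, hjp, hj⟩ := N.valuation_pow_of_nsmul hodd hQn hQ
      -- `v(x - r)^p = v(c)^i` and `v(x' - r)^p = v(c)^j`
      have hpow : A.valuation (x - N.r) ^ j = A.valuation (x' - N.r) ^ i := by
        refine (pow_left_inj₀ zero_le zero_le hp.ne_zero).mp ?_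
        rw [← pow_mul, ← pow_mul, mul_comm j p, mul_comm i p, pow_mul, pow_mul, hi, hj, ← pow_mul,
          ← pow_mul, mul_comm]
      have hcls :
          j • N.cls (A.valuation (x - N.r) ^ 2) = i • N.cls (A.valuation (x' - N.r) ^ 2) := by
        rw [← N.cls_pow (lt_of_le_of_lt zero_le hbigP).ne',
          ← N.cls_pow (lt_of_le_of_lt zero_le hbigQ).ne', ← pow_mul, ← pow_mul, mul_comm 2 j,
          mul_comm 2 i, pow_mul, pow_mul, hpow]
      refine ⟨i, j, fun hd => by have := Nat.le_of_dvd hj0 hd; omega, ?_⟩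
      rcases comp_eq_or_neg N hPn hbigP with e | e <;>
        rcases comp_eq_or_neg N hQn hbigQ with e' | e' <;> simp [e, e', hcls]
  -- hence `j • P + n • Q` is killed by the component map for `n = i` or `n = i * (p - 1) ≡ -i`;
  -- it is a nonzero `p`-torsion point as `p ∤ j`
  have htor : ∀ n : ℕ, p • (j • P + n • Q) = 0 := fun n => by
    rw [nsmul_add, smul_comm p j, hP, smul_comm p n, hQ, nsmul_zero, nsmul_zero, add_zero]
  have hne : ∀ n : ℕ, j • P + n • Q ≠ 0 := by
    intro n h0
    have e : (n * (p - 1)) • Q = j • P := by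
      rw [eq_neg_of_add_eq_zero_left h0, mul_sub_one_nsmul p hQ]
    exact hj (hind _ _ e.symm).1
  have hadd : ∀ n : ℕ, N.comp (j • P + n • Q) = j • N.comp P + n • N.comp Q := fun n => by
    rw [← N.compHom_apply, map_add, map_nsmul, map_nsmul, N.compHom_apply, N.compHom_apply]
  have hQp : p • N.comp Q = 0 := by rw [← N.compHom_apply, ← map_nsmul, hQ, map_zero]
  rcases hcomp with e | e
  · exact ⟨_, hne (i * (p - 1)), htor _, (N.comp_eq_zero_iff _).mp
      (by rw [hadd, mul_sub_one_nsmul p hQp, e, add_neg_cancel])⟩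
  · exact ⟨_, hne i, htor _, (N.comp_eq_zero_iff _).mp (by rw [hadd, e, neg_add_cancel])⟩

omit [(W.map (Int.castRingHom ℚ)).IsElliptic] in
/-- At a small prime of multiplicative reduction the line lies in the identity component. -/
theorem inE0_small (h : IsCyclotomicLine W p T) (hΔ0 : W.Δ ≠ 0) (hA : A.LiesOverPrime q)
    (hq : q.Prime) (hqp : q ≠ p) (hsmall : q ^ 2 + 1 < p) (hΔ : (q : ℤ) ∣ W.Δ)
    (hc₄ : ¬ (q : ℤ) ∣ W.c₄) {S : PointQBar W} (hS : p • S = 0)
    (hind : ∀ i j : ℕ, i • T = j • S → p ∣ i ∧ p ∣ j) :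
    InE0 A (redCurve W A) T := by
  classical
  by_contra hT
  obtain ⟨R, hR0, hpR, hRE⟩ := exists_inE0_torsion hA hq hΔ0 hΔ hc₄ (by
    have := hq.two_le; nlinarith) h.nsmul_eq hS hind
  obtain ⟨σ, hσ⟩ := exists_isFrobeniusAt hA hq
  have hr := reducesTo_qbar (W := W) A
  obtain ⟨hs, hf⟩ := res_frobenius hσ
  -- Frobenius moves `R` by a multiple `k • T`, which is then in the identity component
  obtain ⟨k, hk⟩ := h.cofix σ R hpR
  have hkE : k • T ∈ hr.E0 := by
    have h1 : σ • R ∈ hr.E0 := hr.mem_E0.mpr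
      ((hr.inE0_smul_iff (φ := (residualFrobenius hA hq).toRingHom) hs hf).mpr hRE)
    rw [hk] at h1
    simpa using hr.E0.sub_mem h1 (hr.mem_E0.mpr hRE)
  have hk0 : (k : ZMod p) = 0 := by
    by_contra hk0
    obtain ⟨d, hd⟩ := exists_nsmul_nsmul_eq_self h.nsmul_eq hk0
    exact hT (hr.mem_E0.mp (hd ▸ hr.E0.nsmul_mem hkE d))
  -- so `k ≡ 0` and Frobenius fixes `R`, which is impossible
  refine smul_ne_self_of_small hA hq hqp hsmall hσ hR0 hpR hRE ?_
  rw [hk, h.nsmul_eq_zero_iff.mpr ((ZMod.natCast_eq_zero_iff k p).mp hk0), add_zero]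

end Fermat.Agent.Mazur.Large
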